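import Fermat.Agent.AbelianHeight.HeightMap
import Mathlib.NumberTheory.Real.GoldenRatio

/-!
# Schinzel's bound

With `a = 1/2 - 1/(2 √5)` and `b = 1/(2 √5)` one has `a log t + b log |1 - t ^ 2| + log φ / 2 ≤ log⁺ t`
for real `t`, and the product formula for `x` and `1 - x c x` gives Schinzel's bound for fields with a
complex conjugation.
-/

set_option autoImplicit false

noncomputable section

namespace FA.TotallyRealHeight

open NumberField Real goldenRatio

/-- The weight of `log |x|`. -/
def wA : ℝ := 1 / 2 - 1 / (2 * √5)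

/-- The weight of `log |1 - x c x|`. -/
def wB : ℝ := 1 / (2 * √5)

theorem wB_pos : 0 < wB := by unfold wB; positivity

theorem wA_nonneg : 0 ≤ wA := by
  have h5 : (1 : ℝ) ≤ √5 := Real.one_le_sqrt.2 (by norm_num)
  have : 1 / (2 * √5) ≤ 1 / 2 := one_div_le_one_div_of_le two_pos (by linarith)
  unfold wA
  linarith

theorem wA_add_wB : wA + wB = 1 / 2 := by unfold wA wB; ring

theorem wA_mul_goldenRatio : wA * φ = 2 * wB := by
  have h5 : √5 * √5 = 5 := Real.mul_self_sqrt (by norm_num)
  have h0 : √5 ≠ 0 := by positivity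
  unfold wA wB goldenRatio
  field_simp
  nlinarith [h5]

/-- The inequality inside the unit interval. -/
theorem log_ineq_lt_one {u : ℝ} (hu0 : 0 < u) (hu1 : u < 1) :
    wA * log u + wB * log (1 - u ^ 2) + log φ / 2 ≤ 0 := by
  have hφ := goldenRatio_pos
  have hs : 0 < 1 - u ^ 2 := by nlinarith
  have h1 := Real.log_le_sub_one_of_pos (show (0 : ℝ) < u ^ 2 * φ ^ 2 by positivity)
  have h2 := Real.log_le_sub_one_of_pos (show (0 : ℝ) < (1 - u ^ 2) * φ by positivity)
  rw [Real.log_mul (by positivity) (by positivity), Real.log_pow, Real.log_pow] at h1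
  rw [Real.log_mul hs.ne' hφ.ne'] at h2
  push_cast at h1
  have h3 := add_le_add (mul_le_mul_of_nonneg_left h1 (div_nonneg wA_nonneg two_pos.le))
    (mul_le_mul_of_nonneg_left h2 wB_pos.le)
  have e : wA / 2 * (u ^ 2 * φ ^ 2 - 1) + wB * ((1 - u ^ 2) * φ - 1) = 0 := by
    linear_combination (u ^ 2 * φ / 2 - (φ - 1) / 2) * wA_mul_goldenRatio
      + (wA / 2) * goldenRatio_sq
  rw [e] at h3
  linear_combination h3 - (log φ) * wA_add_wB

/-- **The real inequality.** -/
theorem log_ineq {t : ℝ} (h0 : 0 < t) (h1 : t ≠ 1) :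
    wA * log t + wB * log |1 - t ^ 2| + log φ / 2 ≤ Real.posLog t := by
  rcases h1.lt_or_gt with h | h
  · rw [abs_of_pos (by nlinarith : (0 : ℝ) < 1 - t ^ 2)]
    exact (log_ineq_lt_one h0 h).trans Real.posLog_nonneg
  · have hh := log_ineq_lt_one (inv_pos.2 h0) (inv_lt_one_of_one_lt₀ h)
    rw [show 1 - t⁻¹ ^ 2 = (t ^ 2 - 1) / t ^ 2 by field_simp, Real.log_inv,
      Real.log_div (by nlinarith) (by positivity), Real.log_pow] at hh
    rw [abs_sub_comm, abs_of_pos (by nlinarith : (0 : ℝ) < t ^ 2 - 1),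
      Real.posLog_eq_log (by rw [abs_of_pos h0]; exact h.le)]
    push_cast at hh
    linear_combination hh + 2 * log t * wA_add_wB

variable {K : Type*} [Field K] [NumberField K]

/-- **Schinzel's bound** for a field with a complex conjugation `c`. -/
theorem height_ge_of_conj (c : K ≃ₐ[ℚ] K)
    (hc : ∀ (σ : K →+* ℂ) (y : K), σ (c y) = starRingEnd ℂ (σ y)) {x : K} (hx : x ≠ 0)
    (hne : x * c x ≠ 1) :
    (Module.finrank ℚ K : ℝ) * (log φ / 2) ≤ Height.logHeight₁ x := by
  classical
  set δ := 1 - x * c x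
  have hδ : δ ≠ 0 := sub_ne_zero.2 (Ne.symm hne)
  have hcx : c x ≠ 0 := by simpa using hx
  obtain ⟨T, hT⟩ : ∃ T : Finset (FinitePlace K), ∀ y ∈ ({x, δ, c x} : Set K),
      (Function.mulSupport fun v : FinitePlace K => v y) ⊆ T := by
    refine ⟨((FinitePlace.hasFiniteMulSupport hx).union ((FinitePlace.hasFiniteMulSupport hδ).union
      (FinitePlace.hasFiniteMulSupport hcx))).toFinset, fun y hy v hv => ?_⟩
    rw [Set.Finite.coe_toFinset]
    rcases hy with rfl | rfl | rfl
    exacts [Or.inl hv, Or.inr (Or.inl hv), Or.inr (Or.inr hv)]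
  have hlog : ∀ y : K, y ≠ 0 → y ∈ ({x, δ, c x} : Set K) →
      ∑ w : InfinitePlace K, (w.mult : ℝ) * log (w y) + ∑ v ∈ T, log (v y) = 0 := by
    intro y hy hmem
    have h := congrArg Real.log (prod_abs_eq_one hy)
    rw [finprod_eq_prod_of_mulSupport_subset _ (hT y hmem), Real.log_one, Real.log_mul
      (Finset.prod_ne_zero_iff.2 fun w _ => pow_ne_zero _ (InfinitePlace.pos_iff.2 hy).ne')
      (Finset.prod_ne_zero_iff.2 fun v _ => (FinitePlace.pos_iff.2 hy).ne'),
      Real.log_prod fun w _ => pow_ne_zero _ (InfinitePlace.pos_iff.2 hy).ne',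
      Real.log_prod fun v _ => (FinitePlace.pos_iff.2 hy).ne'] at h
    simpa only [Real.log_pow] using h
  have hh : ∀ y : K, y ∈ ({x, δ, c x} : Set K) → Height.logHeight₁ y =
      ∑ w : InfinitePlace K, (w.mult : ℝ) * Real.posLog (w y) + ∑ v ∈ T, Real.posLog (v y) := by
    intro y hmem
    rw [logHeight₁_eq, finsum_eq_sum_of_support_subset]
    intro v hv
    refine hT y hmem fun h1 => hv ?_
    simp only [h1, Real.posLog_one]
  have hconj : ∀ w : InfinitePlace K, w (c x) = w x := fun w => by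
    rw [← InfinitePlace.norm_embedding_eq, ← InfinitePlace.norm_embedding_eq w x, hc,
      Complex.norm_conj]
  have hfin : ∑ v ∈ T, Real.posLog (v (c x)) = ∑ v ∈ T, Real.posLog (v x) := by
    have h := AbelianHeight.logHeight_equiv c x
    rw [hh (c x) (by simp), hh x (by simp)] at h
    simp only [hconj] at h
    linarith
  have hinf : ∀ w : InfinitePlace K,
      wA * log (w x) + wB * log (w δ) + log φ / 2 ≤ Real.posLog (w x) := by
    intro w
    have hδw : w δ = |1 - w x ^ 2| := by
      rw [← InfinitePlace.norm_embedding_eq w δ, map_sub, map_one, map_mul, hc, Complex.mul_conj,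
        ← Complex.ofReal_one, ← Complex.ofReal_sub, Complex.norm_real, Real.norm_eq_abs,
        Complex.normSq_eq_norm_sq, InfinitePlace.norm_embedding_eq]
    rw [hδw]
    refine log_ineq (InfinitePlace.pos_iff.2 hx) fun h1 => ((InfinitePlace.pos_iff (w := w)).2 hδ).ne' ?_
    rw [hδw, h1]
    simp
  have hnon : ∀ v : FinitePlace K, wA * log (v x) + wB * log (v δ) ≤
      (wA + wB) * Real.posLog (v x) + wB * Real.posLog (v (c x)) := by
    intro v
    have h1 : log (v x) ≤ Real.posLog (v x) := le_max_right _ _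
    have h2 : log (v δ) ≤ Real.posLog (v x) + Real.posLog (v (c x)) := by
      have hle := FinitePlace.add_le v 1 (-(x * c x))
      rw [← sub_eq_add_neg, map_one, FinitePlace.coe_apply v (-_), AbsoluteValue.map_neg,
        ← FinitePlace.coe_apply, map_mul] at hle
      rcases le_max_iff.1 hle with h | h
      · exact (Real.log_nonpos (apply_nonneg v _) h).trans
          (add_nonneg Real.posLog_nonneg Real.posLog_nonneg)
      · refine (Real.log_le_log (FinitePlace.pos_iff.2 hδ) h).trans ?_
        rw [Real.log_mul (FinitePlace.pos_iff.2 hx).ne' (FinitePlace.pos_iff.2 hcx).ne']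
        exact add_le_add (le_max_right _ _) (le_max_right _ _)
    calc wA * log (v x) + wB * log (v δ)
        ≤ wA * Real.posLog (v x) + wB * (Real.posLog (v x) + Real.posLog (v (c x))) :=
          add_le_add (mul_le_mul_of_nonneg_left h1 wA_nonneg)
            (mul_le_mul_of_nonneg_left h2 wB_pos.le)
      _ = _ := by ring
  have hI := Finset.sum_le_sum fun w (_ : w ∈ (Finset.univ : Finset (InfinitePlace K))) =>
    mul_le_mul_of_nonneg_left (hinf w) (Nat.cast_nonneg (α := ℝ) w.mult)
  have hF := Finset.sum_le_sum fun v (_ : v ∈ T) => hnon v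
  have hD : (∑ w : InfinitePlace K, (w.mult : ℝ)) = Module.finrank ℚ K := by
    exact_mod_cast InfinitePlace.sum_mult_eq (K := K)
  have e1 := hlog x hx (by simp)
  have e2 := hlog δ hδ (by simp)
  have hF0 : 0 ≤ ∑ v ∈ T, Real.posLog (v x) := Finset.sum_nonneg fun v _ => Real.posLog_nonneg
  rw [Finset.sum_congr rfl fun w _ => show (w.mult : ℝ) * (wA * log (w x) + wB * log (w δ) +
      log φ / 2) = wA * ((w.mult : ℝ) * log (w x)) + wB * ((w.mult : ℝ) * log (w δ)) +
        (w.mult : ℝ) * (log φ / 2) by ring,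
    Finset.sum_add_distrib, Finset.sum_add_distrib, ← Finset.mul_sum, ← Finset.mul_sum,
    ← Finset.sum_mul, hD] at hI
  rw [Finset.sum_add_distrib, Finset.sum_add_distrib, ← Finset.mul_sum, ← Finset.mul_sum,
    ← Finset.mul_sum, ← Finset.mul_sum, hfin] at hF
  rw [hh x (by simp)]
  have e1' : wA * ∑ w : InfinitePlace K, (w.mult : ℝ) * log (w x) +
      wA * ∑ v ∈ T, log (v x) = 0 := by rw [← mul_add, e1, mul_zero]
  have e2' : wB * ∑ w : InfinitePlace K, (w.mult : ℝ) * log (w δ) +
      wB * ∑ v ∈ T, log (v δ) = 0 := by rw [← mul_add, e2, mul_zero]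
  have hab : (wA + 2 * wB) * ∑ v ∈ T, Real.posLog (v x) ≤ ∑ v ∈ T, Real.posLog (v x) := by
    refine mul_le_of_le_one_left hF0 ?_
    have := wA_add_wB
    have := wA_nonneg
    linarith
  linarith

end FA.TotallyRealHeight

end
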