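import Fermat.Agent.AbelianHeight.Free
import Fermat.Agent.Lehmer.Mahler
import Fermat.Agent.TotallyRealHeight.Bound
import Mathlib.NumberTheory.NumberField.InfinitePlace.TotallyRealComplex

/-!
# Totally real numbers

The height bound for totally real numbers and the multiplicative group of a field of such numbers.
-/

set_option autoImplicit false
set_option linter.style.haveILetI false

noncomputable section

namespace FA.TotallyRealHeight

open NumberField Polynomial IntermediateField Real goldenRatio

/-- A totally real number: algebraic with all conjugates real. -/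
def IsTotallyRealNumber (x : ℂ) : Prop :=
  IsAlgebraic ℚ x ∧ ∀ y ∈ (minpoly ℚ x).aroots ℂ, y.im = 0

/-- The bound in a field all of whose embeddings are real. -/
theorem height_ge_of_real {K : Type*} [Field K] [NumberField K]
    (hreal : ∀ (σ : K →+* ℂ) (y : K), (σ y).im = 0) {x : K} (h0 : x ≠ 0) (h1 : x ≠ 1)
    (h2 : x ≠ -1) : (Module.finrank ℚ K : ℝ) * (log φ / 2) ≤ Height.logHeight₁ x := by
  refine height_ge_of_conj AlgEquiv.refl (fun σ y => ?_) h0 fun h => ?_
  · exact (Complex.conj_eq_iff_im.2 (hreal σ y)).symm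
  · rcases mul_self_eq_one_iff.1 h with h | h
    exacts [h1 h, h2 h]

/-- The bound for totally real numbers. -/
theorem algHeight_ge {x : ℂ} (hx : IsTotallyRealNumber x) (h0 : x ≠ 0) (h1 : x ≠ 1)
    (h2 : x ≠ -1) : log φ / 2 ≤ BiluTorus.algHeight x := by
  obtain ⟨halg, hroots⟩ := hx
  haveI : FiniteDimensional ℚ ℚ⟮x⟯ := adjoin.finiteDimensional halg.isIntegral
  haveI : NumberField ℚ⟮x⟯ := {}
  set g := AdjoinSimple.gen ℚ x
  have hgx : (g : ℂ) = x := rfl
  have hreal : ∀ (σ : ℚ⟮x⟯ →+* ℂ) (y : ℚ⟮x⟯), (σ y).im = 0 := by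
    intro σ y
    have hroot : σ.toRatAlgHom g ∈ (minpoly ℚ x).aroots ℂ := by
      rw [mem_aroots]
      refine ⟨minpoly.ne_zero halg.isIntegral, ?_⟩
      have e : aeval g (minpoly ℚ x) = 0 := IntermediateField.aeval_gen_minpoly ℚ x
      rw [aeval_algHom_apply, e, map_zero]
    have heq : ((Complex.conjAe.toAlgHom.restrictScalars ℚ).comp σ.toRatAlgHom) =
        σ.toRatAlgHom := by
      refine IntermediateField.adjoin_algHom_ext ℚ fun z hz => ?_
      rw [Set.mem_singleton_iff] at hz
      subst hz
      exact Complex.conj_eq_iff_im.2 (hroots _ hroot)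
    exact Complex.conj_eq_iff_im.1 (DFunLike.congr_fun heq y)
  have h := height_ge_of_real hreal (x := g) (fun e => h0 (by rw [← hgx, e]; rfl))
    (fun e => h1 (by rw [← hgx, e]; rfl)) (fun e => h2 (by rw [← hgx, e]; simp))
  rw [AbelianHeight.logHeight_eq_algHeight (IntermediateField.val ℚ⟮x⟯) g] at h
  exact le_of_mul_le_mul_left h (Nat.cast_pos.2 Module.finrank_pos)

/-- In a field of totally real numbers the roots of unity are `1` and `-1`. -/
theorem mem_torsion_iff (K : IntermediateField ℚ ℂ) (hK : ∀ x ∈ K, IsTotallyRealNumber x) (u : Kˣ) :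
    u ∈ CommGroup.torsion Kˣ ↔ u = 1 ∨ u = -1 := by
  constructor
  · intro hu
    obtain ⟨n, hn, hun⟩ := isOfFinOrder_iff_pow_eq_one.1 hu
    set x : ℂ := ((u : K) : ℂ)
    have hxn : x ^ n = 1 := by
      rw [← SubmonoidClass.coe_pow, ← Units.val_pow_eq_pow_val, hun]
      rfl
    obtain ⟨halg, hroots⟩ := hK x (u : K).2
    have him : x.im = 0 := hroots x (mem_aroots.2 ⟨minpoly.ne_zero halg.isIntegral, minpoly.aeval ℚ x⟩)
    have hnorm : |x.re| = 1 := by
      rw [Complex.abs_re_eq_norm.2 him]
      exact Complex.norm_eq_one_of_pow_eq_one hxn hn.ne'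
    rcases abs_eq zero_le_one |>.1 hnorm with h | h
    · exact Or.inl (Units.ext (Subtype.ext (Complex.ext (by simpa using h) (by simpa using him))))
    · refine Or.inr (Units.ext (Subtype.ext (Complex.ext ?_ ?_)))
      · simpa using h
      · simpa using him
  · rintro (rfl | rfl)
    · exact one_mem _
    · exact isOfFinOrder_iff_pow_eq_one.2 ⟨2, two_pos, by simp⟩

/-- The multiplicative group of a field of totally real numbers is free modulo `±1`. -/
theorem free_units (K : IntermediateField ℚ ℂ) (hK : ∀ x ∈ K, IsTotallyRealNumber x) :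
    Module.Free ℤ (Additive (Kˣ ⧸ CommGroup.torsion Kˣ)) :=
  AbelianHeight.free_units_mod_torsion K (fun x hx => (hK x hx).1)
    (half_pos (Real.log_pos one_lt_goldenRatio)) fun x hx h0 hroot => algHeight_ge (hK x hx) h0
      (fun h => hroot 1 one_pos (by rw [pow_one, h]))
      (fun h => hroot 2 two_pos (by rw [h]; norm_num))

end FA.TotallyRealHeight

end
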